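/-
Programme FFJ (S19), chapter Core.  Owner: helper35.

The class functor of Programme JAC (`JAC/Core/AlgAtlas36`: `Cl`, `bc`, `IsRigidCl`, `IsDegZero`) over an
arbitrary commutative BASE RING `k` instead of a field (in FFJ: `k` is a discrete valuation ring and
`A0, A1, A01` are the charts of a smooth two-chart curve over it).  Verbatim fork with `[CommRing k]`;
the declarations carry the suffix `R`.
-/
import Mathlib
import Fermat.Agent.JAC.Core.ConstFamily36
import Fermat.Agent.JAC.Core.Degree36
import Fermat.Agent.JAC.Grp.BaseChange33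

set_option autoImplicit false

universe u

namespace Fermat.Agent.FFJ.Core.ClR35

open scoped TensorProduct
open scoped Fermat.Agent.JAC.Core.ConstFamily36
open Fermat.Agent.JAC.Core.Defs36 Fermat.Agent.JAC.Core.Cart36 Fermat.Agent.JAC.Core.ConstFamily36
  Fermat.Agent.JAC.Core.Degree36 Fermat.Agent.JAC.Grp.Diag33 Fermat.Agent.JAC.Grp.BaseChange33

variable (k : Type u) [CommRing k] (A0 A1 A01 : Type u) [CommRing A0] [CommRing A1] [CommRing A01]
  [Algebra k A0] [Algebra k A1] [Algebra k A01] [Algebra A0 A01] [Algebra A1 A01]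
  [IsScalarTower k A0 A01] [IsScalarTower k A1 A01] (t : A0) (s : A1)
  [IsLocalization.Away t A01] [IsLocalization.Away s A01]

/-- Isomorphism classes of line diagrams over the constant family `B ⊗[k] A_i`. -/
abbrev ClR (B : Type u) [CommRing B] [Algebra k B] : Type (u + 1) :=
  LineDiag.Classes ((1 : B) ⊗ₜ[k] t) ((1 : B) ⊗ₜ[k] s) (B ⊗[k] A01)

section BaseChange

variable {k} {B B' : Type u} [CommRing B] [CommRing B'] [Algebra k B] [Algebra k B']
  (ψ : B →ₐ[k] B')

/-- The ring map `B ⊗[k] A → B' ⊗[k] A'` induced by `ψ : B → B'` and `A → A'`. -/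
noncomputable def bcMapR (A A' : Type u) [CommRing A] [CommRing A'] [Algebra k A] [Algebra k A']
    [Algebra A A'] [IsScalarTower k A A'] : B ⊗[k] A →+* B' ⊗[k] A' :=
  (Algebra.TensorProduct.map ψ (IsScalarTower.toAlgHom k A A')).toRingHom

@[simp]
theorem bcMapR_tmul (A A' : Type u) [CommRing A] [CommRing A'] [Algebra k A] [Algebra k A']
    [Algebra A A'] [IsScalarTower k A A'] (b : B) (a : A) :
    bcMapR ψ A A' (b ⊗ₜ a) = ψ b ⊗ₜ algebraMap A A' a := rfl

variable {A0 A1 A01 t s} in
/-- Base change of classes of line diagrams along `ψ : B →ₐ[k] B'`. -/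
noncomputable def bcR : ClR k A0 A1 A01 t s B →* ClR k A0 A1 A01 t s B' :=
  letI : Algebra (B ⊗[k] A0) (B' ⊗[k] A0) := (bcMapR ψ A0 A0).toAlgebra
  letI : Algebra (B ⊗[k] A1) (B' ⊗[k] A1) := (bcMapR ψ A1 A1).toAlgebra
  letI : Algebra (B ⊗[k] A01) (B' ⊗[k] A01) := (bcMapR ψ A01 A01).toAlgebra
  letI : Algebra (B ⊗[k] A0) (B' ⊗[k] A01) := (bcMapR ψ A0 A01).toAlgebra
  letI : Algebra (B ⊗[k] A1) (B' ⊗[k] A01) := (bcMapR ψ A1 A01).toAlgebra
  haveI : IsScalarTower (B ⊗[k] A0) (B ⊗[k] A01) (B' ⊗[k] A01) :=
    IsScalarTower.of_algebraMap_eq (fun x => by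
      induction x using TensorProduct.induction_on with
      | zero => simp
      | tmul b a => rfl
      | add x y hx hy => simp only [map_add, hx, hy])
  haveI : IsScalarTower (B ⊗[k] A0) (B' ⊗[k] A0) (B' ⊗[k] A01) :=
    IsScalarTower.of_algebraMap_eq (fun x => by
      induction x using TensorProduct.induction_on with
      | zero => simp
      | tmul b a => rfl
      | add x y hx hy => simp only [map_add, hx, hy])
  haveI : IsScalarTower (B ⊗[k] A1) (B ⊗[k] A01) (B' ⊗[k] A01) :=
    IsScalarTower.of_algebraMap_eq (fun x => by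
      induction x using TensorProduct.induction_on with
      | zero => simp
      | tmul b a => rfl
      | add x y hx hy => simp only [map_add, hx, hy])
  haveI : IsScalarTower (B ⊗[k] A1) (B' ⊗[k] A1) (B' ⊗[k] A01) :=
    IsScalarTower.of_algebraMap_eq (fun x => by
      induction x using TensorProduct.induction_on with
      | zero => simp
      | tmul b a => rfl
      | add x y hx hy => simp only [map_add, hx, hy])
  baseChangeHom (B' ⊗[k] A01) ((1 : B') ⊗ₜ[k] t) ((1 : B') ⊗ₜ[k] s)

end BaseChange

section Conditions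

variable {k A0 A1 A01 t s} (e : A01 →ₐ[k] k)

/-- A class of line diagrams over `B` is *rigid* along the base point `e` if the base change of
`M01` along `B ⊗[k] A01 → B`, `b ⊗ a ↦ b * e a`, is free of rank one. -/
def IsRigidClR (B : Type u) [CommRing B] [Algebra k B] (x : ClR k A0 A1 A01 t s B) : Prop :=
  letI := rigAlgebra B e
  x ∈ rigidSubgroup (t := (1 : B) ⊗ₜ[k] t) (s := (1 : B) ⊗ₜ[k] s) B

/-- A class of line diagrams over `B` has *degree zero* if all its geometric fibres do. -/
def IsDegZeroR (B : Type u) [CommRing B] [Algebra k B] (x : ClR k A0 A1 A01 t s B) : Prop :=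
  ∀ (K : Type u) [Field K] [IsAlgClosed K] [Algebra k K] (ψ : B →ₐ[k] K),
    degClass K (bcR ψ x) = 0

/-- The residue field map of a prime of a `k`-algebra, as a `k`-algebra map. -/
noncomputable abbrev toResidueR (B : Type u) [CommRing B] [Algebra k B] (p : PrimeSpectrum B) :
    B →ₐ[k] p.asIdeal.ResidueField :=
  IsScalarTower.toAlgHom k B p.asIdeal.ResidueField

end Conditions


/-- The functor of points `B ↦ {rigid classes of degree zero on all geometric fibres}`. -/
def PicZeroR {k A0 A1 A01 : Type u} [CommRing k] [CommRing A0] [CommRing A1] [CommRing A01]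
    [Algebra k A0] [Algebra k A1] [Algebra k A01] [Algebra A0 A01] [Algebra A1 A01]
    [IsScalarTower k A0 A01] [IsScalarTower k A1 A01] {t : A0} {s : A1}
    [IsLocalization.Away t A01] [IsLocalization.Away s A01] (e : A01 →ₐ[k] k)
    (B : Type u) [CommRing B] [Algebra k B] : Set (ClR k A0 A1 A01 t s B) :=
  {x | IsRigidClR e B x ∧ IsDegZeroR B x}

end Fermat.Agent.FFJ.Core.ClR35
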