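/-
Programme FFJ (S19), chapter Core.  Owner: helper35.

Functoriality of the class functor `ClR` over a commutative base ring `k` (fork of the constant-family
part of `JAC/Grp/ConstBc33` with `[CommRing k]`): `bcR_eq_baseChangeClass`, `bcR_cls_eq_iff`, `bcR_cls`,
`bcR_id`, `bcR_comp`, `bcR_bc`, `isRigidClR_bcR`, `isDegZeroR_bcR`.
-/
import Mathlib
import Fermat.Agent.FFJ.Core.ClR35
import Fermat.Agent.JAC.Grp.ConstBc33

set_option autoImplicit false
set_option linter.style.haveILetI false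
set_option linter.unusedSectionVars false

open TensorProduct

universe u

namespace Fermat.Agent.FFJ.Core.ClRBc35

open Fermat.Agent.JAC.Core.Defs36 Fermat.Agent.JAC.Core.Cart36 Fermat.Agent.JAC.Grp.Diag33
  Fermat.Agent.JAC.Grp.Cart33

/-! ### The constant family -/

section Const

open scoped Fermat.Agent.JAC.Core.ConstFamily36
open Fermat.Agent.JAC.Core.ConstFamily36 Fermat.Agent.JAC.Core.Degree36
  Fermat.Agent.FFJ.Core.ClR35 Fermat.Agent.JAC.Grp.ConstBc33

variable {k : Type u} [CommRing k] {A0 A1 A01 : Type u} [CommRing A0] [CommRing A1] [CommRing A01]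
  [Algebra k A0] [Algebra k A1] [Algebra k A01] [Algebra A0 A01] [Algebra A1 A01]
  [IsScalarTower k A0 A01] [IsScalarTower k A1 A01] {t : A0} {s : A1}
  [IsLocalization.Away t A01] [IsLocalization.Away s A01]
  {B B' B'' : Type u} [CommRing B] [CommRing B'] [CommRing B''] [Algebra k B] [Algebra k B']
  [Algebra k B'']

theorem bcMapR_self (ψ : B →ₐ[k] B') (A : Type u) [CommRing A] [Algebra k A] :
    bcMapR ψ A A = (Algebra.TensorProduct.map ψ (AlgHom.id k A)).toRingHom := rfl

/-- `AlgAtlas36.bc ψ` is the fibred base change along `ConstFamily36.familyHom ψ t s`. -/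
theorem bcR_eq_baseChangeClass (ψ : B →ₐ[k] B') :
    (bcR ψ : ClR k A0 A1 A01 t s B →* ClR k A0 A1 A01 t s B') =
      baseChangeClass (familyHom ψ t s) := by
  letI : Algebra (B ⊗[k] A0) (B' ⊗[k] A0) := (bcMapR ψ A0 A0).toAlgebra
  letI : Algebra (B ⊗[k] A1) (B' ⊗[k] A1) := (bcMapR ψ A1 A1).toAlgebra
  letI : Algebra (B ⊗[k] A01) (B' ⊗[k] A01) := (bcMapR ψ A01 A01).toAlgebra
  letI : Algebra (B ⊗[k] A0) (B' ⊗[k] A01) := (bcMapR ψ A0 A01).toAlgebra
  letI : Algebra (B ⊗[k] A1) (B' ⊗[k] A01) := (bcMapR ψ A1 A01).toAlgebra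
  haveI : IsScalarTower (B ⊗[k] A0) (B ⊗[k] A01) (B' ⊗[k] A01) :=
    IsScalarTower.of_algebraMap_eq (fun x => by
      induction x using TensorProduct.induction_on with
      | zero => simp
      | tmul b a => rfl
      | add x y hx hy => simp only [map_add, hx, hy])
  haveI : IsScalarTower (B ⊗[k] A0) (B' ⊗[k] A0) (B' ⊗[k] A01) :=
    IsScalarTower.of_algebraMap_eq (fun x => by
      induction x using TensorProduct.induction_on with
      | zero => simp
      | tmul b a => rfl
      | add x y hx hy => simp only [map_add, hx, hy])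
  haveI : IsScalarTower (B ⊗[k] A1) (B ⊗[k] A01) (B' ⊗[k] A01) :=
    IsScalarTower.of_algebraMap_eq (fun x => by
      induction x using TensorProduct.induction_on with
      | zero => simp
      | tmul b a => rfl
      | add x y hx hy => simp only [map_add, hx, hy])
  haveI : IsScalarTower (B ⊗[k] A1) (B' ⊗[k] A1) (B' ⊗[k] A01) :=
    IsScalarTower.of_algebraMap_eq (fun x => by
      induction x using TensorProduct.induction_on with
      | zero => simp
      | tmul b a => rfl
      | add x y hx hy => simp only [map_add, hx, hy])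
  exact baseChangeHom_eq_baseChangeClass (familyHom ψ t s) rfl rfl rfl

/-- Any model of the base change computes `bc ψ`. -/
theorem bcR_cls_eq_iff (ψ : B →ₐ[k] B')
    (N : LineDiag ((1 : B) ⊗ₜ[k] t) ((1 : B) ⊗ₜ[k] s) (B ⊗[k] A01))
    (N' : LineDiag ((1 : B') ⊗ₜ[k] t) ((1 : B') ⊗ₜ[k] s) (B' ⊗[k] A01)) :
    bcR ψ (cls N) = cls N' ↔ Nonempty (LineDiag.CartHom (familyHom ψ t s) N N') := by
  rw [bcR_eq_baseChangeClass, baseChangeClass_cls_eq_iff]

theorem bcR_cls (ψ : B →ₐ[k] B')
    (N : LineDiag ((1 : B) ⊗ₜ[k] t) ((1 : B) ⊗ₜ[k] s) (B ⊗[k] A01)) :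
    bcR ψ (cls N) = cls (baseChange (familyHom ψ t s) N) := by
  rw [bcR_eq_baseChangeClass, baseChangeClass_cls]

theorem familyHomR_id :
    familyHom (AlgHom.id k B) t s =
      familyHomId ((1 : B) ⊗ₜ[k] t) ((1 : B) ⊗ₜ[k] s) (B ⊗[k] A01) := by
  apply familyHom_ext
  · show (Algebra.TensorProduct.map (AlgHom.id k B) (AlgHom.id k A0)).toRingHom = RingHom.id _
    rw [Algebra.TensorProduct.map_id]
    rfl
  · show (Algebra.TensorProduct.map (AlgHom.id k B) (AlgHom.id k A1)).toRingHom = RingHom.id _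
    rw [Algebra.TensorProduct.map_id]
    rfl
  · show (Algebra.TensorProduct.map (AlgHom.id k B) (AlgHom.id k A01)).toRingHom = RingHom.id _
    rw [Algebra.TensorProduct.map_id]
    rfl

theorem mapR_comp_id (ψ : B →ₐ[k] B') (ψ' : B' →ₐ[k] B'') (A : Type u) [CommRing A]
    [Algebra k A] :
    (Algebra.TensorProduct.map (ψ'.comp ψ) (AlgHom.id k A)).toRingHom =
      (Algebra.TensorProduct.map ψ' (AlgHom.id k A)).toRingHom.comp
        (Algebra.TensorProduct.map ψ (AlgHom.id k A)).toRingHom := by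
  refine RingHom.ext fun x => ?_
  induction x using TensorProduct.induction_on with
  | zero => simp
  | tmul b a => simp
  | add x y hx hy => simp only [map_add, hx, hy]

theorem familyHomR_comp (ψ : B →ₐ[k] B') (ψ' : B' →ₐ[k] B'') :
    (familyHom (ψ'.comp ψ) t s : FamilyHom ((1 : B) ⊗ₜ[k] t) ((1 : B) ⊗ₜ[k] s)
        ((1 : B'') ⊗ₜ[k] t) ((1 : B'') ⊗ₜ[k] s) (B ⊗[k] A01) (B'' ⊗[k] A01)) =
      familyHomComp (familyHom ψ t s) (familyHom ψ' t s) :=
  familyHom_ext (mapR_comp_id ψ ψ' A0) (mapR_comp_id ψ ψ' A1) (mapR_comp_id ψ ψ' A01)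

/-- `bc` of the identity is the identity. -/
theorem bcR_id :
    (bcR (AlgHom.id k B) : ClR k A0 A1 A01 t s B →* ClR k A0 A1 A01 t s B) = MonoidHom.id _ := by
  rw [bcR_eq_baseChangeClass, familyHomR_id, baseChangeClass_id]

/-- `bc` is compatible with composition. -/
theorem bcR_comp (ψ : B →ₐ[k] B') (ψ' : B' →ₐ[k] B'') :
    (bcR (ψ'.comp ψ) : ClR k A0 A1 A01 t s B →* ClR k A0 A1 A01 t s B'') =
      (bcR ψ').comp (bcR ψ) := by
  rw [bcR_eq_baseChangeClass, bcR_eq_baseChangeClass, bcR_eq_baseChangeClass, familyHomR_comp,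
    baseChangeClass_comp]

theorem bcR_bc (ψ : B →ₐ[k] B') (ψ' : B' →ₐ[k] B'') (x : ClR k A0 A1 A01 t s B) :
    bcR ψ' (bcR ψ x) = bcR (ψ'.comp ψ) x := by
  rw [bcR_comp]
  rfl

@[simp]
theorem bcR_id_apply (x : ClR k A0 A1 A01 t s B) : bcR (AlgHom.id k B) x = x := by
  rw [bcR_id]
  rfl

/-- The base point is compatible with change of `B`. -/
theorem rigHomR_map (e : A01 →ₐ[k] k) (ψ : B →ₐ[k] B') (r : B ⊗[k] A01) :
    ψ (rigHom B e r) = rigHom B' e ((Algebra.TensorProduct.map ψ (AlgHom.id k A01)) r) := by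
  induction r using TensorProduct.induction_on with
  | zero => simp
  | tmul b a => simp
  | add x y hx hy => simp only [map_add, hx, hy]

/-- Rigid classes are stable under base change. -/
theorem isRigidClR_bcR (e : A01 →ₐ[k] k) (ψ : B →ₐ[k] B') (x : ClR k A0 A1 A01 t s B)
    (hx : IsRigidClR e B x) : IsRigidClR e B' (bcR ψ x) := by
  rw [bcR_eq_baseChangeClass]
  letI := rigAlgebra B e
  letI := rigAlgebra B' e
  exact baseChangeClass_mem_rigidSubgroup (familyHom ψ t s) (ψ : B →+* B')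
    (fun r => rigHomR_map e ψ r) x hx

/-- Degree zero classes are stable under base change. -/
theorem isDegZeroR_bcR (ψ : B →ₐ[k] B') (x : ClR k A0 A1 A01 t s B)
    (hx : IsDegZeroR B x) : IsDegZeroR B' (bcR ψ x) := by
  intro K _ _ _ φ
  rw [bcR_bc]
  exact hx K (φ.comp ψ)

end Const

end Fermat.Agent.FFJ.Core.ClRBc35
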