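import Mathlib
import Fermat.Agent.FFJ.Core.ClRBc35
import Fermat.Agent.JAC.Frame.DegFamily65

/-!
# Programme FFJ, chapter Core: the degree is locally constant in families, over a base ring

Port of the constant-family part of `JAC/Frame/DegFamily65` and of `JAC/Frame/DegSpread65` from
`[Field k]` (`AlgAtlas36.Cl`, `bc`, `IsDegZero`) to an arbitrary commutative base ring `k`
(`ClR35.ClR`, `bcR`, `IsDegZeroR`).  The ring-general part of `DegFamily65` (`chiAt`, `degAt`,
`chi_eq_chiAt_of_cartHom`, `deg_baseChange_eq_degAt`, `isLocallyConstant_degAt`, ...) is used as is.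
Same names with the suffix `R`.
-/

set_option autoImplicit false
set_option linter.style.haveILetI false
set_option linter.unusedSectionVars false

namespace Fermat.Agent.FFJ.Core.DegFamilyR65

open Fermat.Agent.JAC.Core.Defs36 Fermat.Agent.JAC.Core.Cart36 Fermat.Agent.JAC.Grp.Cart33
  Fermat.Agent.JAC.Frame.DegFamily65 Fermat.Agent.FFJ.Core.ClR35 Fermat.Agent.FFJ.Core.ClRBc35
  Fermat.Agent.JAC TensorProduct

universe u

section ConstFamily

open scoped Fermat.Agent.JAC.Core.ConstFamily36
open Fermat.Agent.JAC.Core.ConstFamily36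
  Fermat.Agent.JAC.Core.Degree36 Fermat.Agent.JAC.Grp.Diag33 Polynomial

variable {k : Type u} [CommRing k] {A0 A1 A01 : Type u} [CommRing A0] [CommRing A1] [CommRing A01]
  [Algebra k A0] [Algebra k A1] [Algebra k A01] [Algebra A0 A01] [Algebra A1 A01]
  [IsScalarTower k A0 A01] [IsScalarTower k A1 A01] {t : A0} {s : A1}
  [IsLocalization.Away t A01] [IsLocalization.Away s A01]

/-- **The degree of a fibre of a family of line diagrams over the constant family**: for
`ψ : B →ₐ[k] K` with `K` a field, `degClass K (bcR ψ [N]) = degAt B N K`. -/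
theorem degClass_bcR {B : Type u} [CommRing B] [Algebra k B] {K : Type u} [Field K] [Algebra k K]
    (ψ : B →ₐ[k] K)
    (N : LineDiag ((1 : B) ⊗ₜ[k] t) ((1 : B) ⊗ₜ[k] s) (B ⊗[k] A01)) :
    letI : Algebra B K := ψ.toRingHom.toAlgebra
    degClass K (bcR ψ (cls N)) = degAt B N K := by
  letI : Algebra B K := ψ.toRingHom.toAlgebra
  haveI : IsScalarTower k B K := IsScalarTower.of_algebraMap_eq fun c => (ψ.commutes c).symm
  letI : Algebra (B ⊗[k] A0) (K ⊗[k] A0) := (bcMapR ψ A0 A0).toAlgebra
  letI : Algebra (B ⊗[k] A1) (K ⊗[k] A1) := (bcMapR ψ A1 A1).toAlgebra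
  letI : Algebra (B ⊗[k] A01) (K ⊗[k] A01) := (bcMapR ψ A01 A01).toAlgebra
  letI : Algebra (B ⊗[k] A0) (K ⊗[k] A01) := (bcMapR ψ A0 A01).toAlgebra
  letI : Algebra (B ⊗[k] A1) (K ⊗[k] A01) := (bcMapR ψ A1 A01).toAlgebra
  haveI : IsScalarTower (B ⊗[k] A0) (B ⊗[k] A01) (K ⊗[k] A01) :=
    IsScalarTower.of_algebraMap_eq (fun x => by
      induction x using TensorProduct.induction_on with
      | zero => simp
      | tmul b a => rfl
      | add x y hx hy => simp only [map_add, hx, hy])
  haveI : IsScalarTower (B ⊗[k] A0) (K ⊗[k] A0) (K ⊗[k] A01) :=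
    IsScalarTower.of_algebraMap_eq (fun x => by
      induction x using TensorProduct.induction_on with
      | zero => simp
      | tmul b a => rfl
      | add x y hx hy => simp only [map_add, hx, hy])
  haveI : IsScalarTower (B ⊗[k] A1) (B ⊗[k] A01) (K ⊗[k] A01) :=
    IsScalarTower.of_algebraMap_eq (fun x => by
      induction x using TensorProduct.induction_on with
      | zero => simp
      | tmul b a => rfl
      | add x y hx hy => simp only [map_add, hx, hy])
  haveI : IsScalarTower (B ⊗[k] A1) (K ⊗[k] A1) (K ⊗[k] A01) :=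
    IsScalarTower.of_algebraMap_eq (fun x => by
      induction x using TensorProduct.induction_on with
      | zero => simp
      | tmul b a => rfl
      | add x y hx hy => simp only [map_add, hx, hy])
  show Core.Degree36.deg K (Grp.BaseChange33.baseChange (K ⊗[k] A01) ((1 : K) ⊗ₜ[k] t)
    ((1 : K) ⊗ₜ[k] s) N) = degAt B N K
  refine deg_baseChange_eq_degAt ((1 : K) ⊗ₜ[k] t) ((1 : K) ⊗ₜ[k] s) ?_ ?_ B K ?_ ?_ ?_ N
  · change bcMapR ψ A0 A0 ((1 : B) ⊗ₜ[k] t) = _
    rw [bcMapR_tmul, map_one]
    rfl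
  · change bcMapR ψ A1 A1 ((1 : B) ⊗ₜ[k] s) = _
    rw [bcMapR_tmul, map_one]
    rfl
  · exact isPushoutSquare_tensor A0 _ (fun b a => rfl)
  · exact isPushoutSquare_tensor A1 _ (fun b a => rfl)
  · exact isPushoutSquare_tensor A01 _ (fun b a => rfl)


section Main

variable (hts : algebraMap A0 A01 t * algebraMap A1 A01 s = 1)
  {n0 n1 : ℕ} (a0 : Fin n0 → A0)
  (ha0 : Function.Bijective (fun p : Fin n0 → k[X] => ∑ j, Polynomial.aeval t (p j) * a0 j))
  (a1 : Fin n1 → A1)
  (ha1 : Function.Bijective (fun p : Fin n1 → k[X] => ∑ j, Polynomial.aeval s (p j) * a1 j))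

omit [IsLocalization.Away t A01] [IsLocalization.Away s A01] in
include hts in
theorem hts_tensorR (B : Type u) [CommRing B] [Algebra k B] :
    algebraMap (B ⊗[k] A0) (B ⊗[k] A01) ((1 : B) ⊗ₜ[k] t) *
      algebraMap (B ⊗[k] A1) (B ⊗[k] A01) ((1 : B) ⊗ₜ[k] s) = 1 := by
  rw [algebraMap_tensor_tmul, algebraMap_tensor_tmul, Algebra.TensorProduct.tmul_mul_tmul, hts,
    mul_one]
  rfl

/-- The degree function of a class over `B`: the degree of the fibre at the residue field of each
point of `Spec B`. -/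
noncomputable def degFunR {B : Type u} [CommRing B] [Algebra k B] (ξ : ClR k A0 A1 A01 t s B) :
    PrimeSpectrum B → ℤ :=
  fun p => degClass p.asIdeal.ResidueField (bcR (toResidueR B p) ξ)

omit [IsLocalization.Away t A01] [IsLocalization.Away s A01] in
theorem toResidueR_toAlgebra {B : Type u} [CommRing B] [Algebra k B] (p : PrimeSpectrum B) :
    (toResidueR (k := k) B p).toRingHom.toAlgebra =
      (inferInstance : Algebra B p.asIdeal.ResidueField) :=
  Algebra.algebra_ext _ _ (fun _ => rfl)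

theorem degFunR_cls {B : Type u} [CommRing B] [Algebra k B]
    (N : LineDiag ((1 : B) ⊗ₜ[k] t) ((1 : B) ⊗ₜ[k] s) (B ⊗[k] A01)) (p : PrimeSpectrum B) :
    degFunR (cls N) p = degAt B N p.asIdeal.ResidueField := by
  unfold degFunR
  rw [degClass_bcR (toResidueR B p) N, toResidueR_toAlgebra p]

include hts ha0 ha1 in
/-- **The degree of the fibre at any field-valued point** `ψ : B →ₐ[k] K` is the value of `degFunR`
at the point `ker ψ` of `Spec B`. -/
theorem degClass_bcR_eq_degFunR {B : Type u} [CommRing B] [Algebra k B]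
    (ξ : ClR k A0 A1 A01 t s B) (K : Type u) [Field K] [Algebra k K] (ψ : B →ₐ[k] K) :
    degClass K (bcR ψ ξ) = degFunR ξ ⟨RingHom.ker ψ, RingHom.ker_isPrime ψ⟩ := by
  induction ξ using Quotient.inductionOn with
  | _ N =>
    change degClass K (bcR ψ (cls N)) = degFunR (cls N) _
    rw [degClass_bcR ψ N, degFunR_cls]
    letI : Algebra B K := ψ.toRingHom.toAlgebra
    have hb0 := Frame.BaseChange65.bijective_baseChange B ha0
    have hb1 := Frame.BaseChange65.bijective_baseChange B ha1
    have key := degAt_eq_residueField (B := B) (hts_tensorR hts B) _ hb0 _ hb1 N K ⊥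
    have hp : (⊥ : PrimeSpectrum K).comap (algebraMap B K) =
        ⟨RingHom.ker ψ, RingHom.ker_isPrime ψ⟩ := by
      apply PrimeSpectrum.ext
      rfl
    rw [hp] at key
    exact key

include hts ha0 ha1 in
/-- **The degree is locally constant in families.** -/
theorem isLocallyConstant_degFunR {B : Type u} [CommRing B] [Algebra k B]
    (ξ : ClR k A0 A1 A01 t s B) : IsLocallyConstant (degFunR ξ) := by
  induction ξ using Quotient.inductionOn with
  | _ N =>
    have hb0 := Frame.BaseChange65.bijective_baseChange B ha0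
    have hb1 := Frame.BaseChange65.bijective_baseChange B ha1
    have key := isLocallyConstant_degAt (B := B) (hts_tensorR hts B) _ hb0 _ hb1 N
    have : degFunR (cls N) = fun p : PrimeSpectrum B => degAt B N p.asIdeal.ResidueField :=
      funext fun p => degFunR_cls N p
    change IsLocallyConstant (degFunR (cls N))
    rw [this]
    exact key

include hts ha0 ha1 in
/-- Existential packaging: the degree of the fibres of a class over `B` is given by a locally
constant function on `Spec B`. -/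
theorem exists_locallyConstant_degR {B : Type u} [CommRing B] [Algebra k B]
    (ξ : ClR k A0 A1 A01 t s B) :
    ∃ d : PrimeSpectrum B → ℤ, IsLocallyConstant d ∧
      ∀ (K : Type u) [Field K] [Algebra k K] (ψ : B →ₐ[k] K),
        degClass K (bcR ψ ξ) = d ⟨RingHom.ker ψ, RingHom.ker_isPrime ψ⟩ :=
  ⟨degFunR ξ, isLocallyConstant_degFunR hts a0 ha0 a1 ha1 ξ,
    fun K _ _ ψ => degClass_bcR_eq_degFunR hts a0 ha0 a1 ha1 ξ K ψ⟩

include hts ha0 ha1 in
/-- The locus of `Spec B` where the degree vanishes is open and closed. -/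
theorem isClopen_degZeroR {B : Type u} [CommRing B] [Algebra k B] (ξ : ClR k A0 A1 A01 t s B) :
    IsClopen {p : PrimeSpectrum B | degFunR ξ p = 0} :=
  (isLocallyConstant_degFunR hts a0 ha0 a1 ha1 ξ).isClopen_fiber 0

include hts ha0 ha1 in
/-- **`IsDegZeroR` is a pointwise condition on `Spec B`.** -/
theorem isDegZeroR_iff {B : Type u} [CommRing B] [Algebra k B] (ξ : ClR k A0 A1 A01 t s B) :
    IsDegZeroR B ξ ↔ ∀ p : PrimeSpectrum B, degFunR ξ p = 0 := by
  constructor
  · intro h p
    let L := AlgebraicClosure p.asIdeal.ResidueField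
    let ψ : B →ₐ[k] L := (IsScalarTower.toAlgHom k p.asIdeal.ResidueField L).comp (toResidueR B p)
    have h1 := h L ψ
    rw [degClass_bcR_eq_degFunR hts a0 ha0 a1 ha1 ξ L ψ] at h1
    have hp : (⟨RingHom.ker ψ, RingHom.ker_isPrime ψ⟩ : PrimeSpectrum B) = p := by
      apply PrimeSpectrum.ext
      ext b
      change ψ b = 0 ↔ b ∈ p.asIdeal
      change algebraMap p.asIdeal.ResidueField L (algebraMap B p.asIdeal.ResidueField b) = 0 ↔ _
      rw [map_eq_zero_iff _ (algebraMap p.asIdeal.ResidueField L).injective,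
        Ideal.algebraMap_residueField_eq_zero]
    rw [hp] at h1
    exact h1
  · intro h K _ _ _ ψ
    rw [degClass_bcR_eq_degFunR hts a0 ha0 a1 ha1 ξ K ψ]
    exact h _

include hts ha0 ha1 in
/-- The degree function is compatible with base change. -/
theorem degFunR_bcR {B B' : Type u} [CommRing B] [CommRing B'] [Algebra k B] [Algebra k B']
    (φ : B →ₐ[k] B') (ξ : ClR k A0 A1 A01 t s B) (p' : PrimeSpectrum B') :
    degFunR (bcR φ ξ) p' = degFunR ξ (p'.comap φ.toRingHom) := by
  unfold degFunR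
  rw [bcR_bc,
    degClass_bcR_eq_degFunR hts a0 ha0 a1 ha1 ξ _ ((toResidueR B' p').comp φ),
    degClass_bcR_eq_degFunR hts a0 ha0 a1 ha1 ξ _ (toResidueR B (p'.comap φ.toRingHom))]
  congr 1
  apply PrimeSpectrum.ext
  ext b
  change algebraMap B' p'.asIdeal.ResidueField (φ b) = 0 ↔
    algebraMap B (p'.comap φ.toRingHom).asIdeal.ResidueField b = 0
  rw [Ideal.algebraMap_residueField_eq_zero, Ideal.algebraMap_residueField_eq_zero]
  rfl

include hts ha0 ha1 in
/-- **The degree is invariant under extension of the base field.** -/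
theorem degClass_bcR_field {K L : Type u} [Field K] [Field L] [Algebra k K] [Algebra k L]
    (ψ : K →ₐ[k] L) (ξ : ClR k A0 A1 A01 t s K) : degClass L (bcR ψ ξ) = degClass K ξ := by
  have h1 := degClass_bcR_eq_degFunR hts a0 ha0 a1 ha1 ξ L ψ
  have h2 := degClass_bcR_eq_degFunR hts a0 ha0 a1 ha1 ξ K (AlgHom.id k K)
  rw [bcR_id_apply] at h2
  rw [h1, h2]
  congr 1
  exact Subsingleton.elim _ _

include hts ha0 ha1 in
/-- `IsDegZeroR` in terms of the residue fields of the points of `Spec B`. -/
theorem isDegZeroR_iff_residue {B : Type u} [CommRing B] [Algebra k B]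
    (ξ : ClR k A0 A1 A01 t s B) :
    IsDegZeroR B ξ ↔
      ∀ p : PrimeSpectrum B, degClass p.asIdeal.ResidueField (bcR (toResidueR B p) ξ) = 0 :=
  isDegZeroR_iff hts a0 ha0 a1 ha1 ξ

include hts ha0 ha1 in
/-- Over a field, `IsDegZeroR` means that the degree vanishes. -/
theorem isDegZeroR_field_iff {K : Type u} [Field K] [Algebra k K] (ξ : ClR k A0 A1 A01 t s K) :
    IsDegZeroR K ξ ↔ degClass K ξ = 0 := by
  constructor
  · intro h
    have h1 := (isDegZeroR_iff hts a0 ha0 a1 ha1 ξ).1 h ⊥
    unfold degFunR at h1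
    rwa [degClass_bcR_field hts a0 ha0 a1 ha1] at h1
  · intro h L _ _ _ ψ
    rw [degClass_bcR_field hts a0 ha0 a1 ha1, h]

include hts ha0 ha1 in
/-- **`IsDegZeroR` can be checked on any family of base changes which is jointly surjective on
spectra** (Zariski covers, nilpotent thickenings, faithfully flat covers, residue fields...). -/
theorem isDegZeroR_iff_of_jointly_surjective {B : Type u} [CommRing B] [Algebra k B]
    (ξ : ClR k A0 A1 A01 t s B) {ι : Type*} (B' : ι → Type u) [∀ i, CommRing (B' i)]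
    [∀ i, Algebra k (B' i)] (φ : ∀ i, B →ₐ[k] B' i)
    (hφ : ∀ p : PrimeSpectrum B, ∃ (i : ι) (p' : PrimeSpectrum (B' i)),
      p'.comap (φ i).toRingHom = p) :
    IsDegZeroR B ξ ↔ ∀ i, IsDegZeroR (B' i) (bcR (φ i) ξ) := by
  constructor
  · intro h i
    exact isDegZeroR_bcR (φ i) ξ h
  · intro h
    rw [isDegZeroR_iff hts a0 ha0 a1 ha1]
    intro p
    obtain ⟨i, p', rfl⟩ := hφ p
    rw [← degFunR_bcR hts a0 ha0 a1 ha1]
    exact (isDegZeroR_iff hts a0 ha0 a1 ha1 _).1 (h i) p'

include hts ha0 ha1 in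
/-- `IsDegZeroR` descends along a map which is surjective on spectra (e.g. the quotient by a
nilpotent ideal). -/
theorem isDegZeroR_iff_of_comap_surjective {B B' : Type u} [CommRing B] [CommRing B']
    [Algebra k B] [Algebra k B'] (φ : B →ₐ[k] B')
    (hφ : Function.Surjective (PrimeSpectrum.comap φ.toRingHom)) (ξ : ClR k A0 A1 A01 t s B) :
    IsDegZeroR B ξ ↔ IsDegZeroR B' (bcR φ ξ) := by
  rw [isDegZeroR_iff_of_jointly_surjective hts a0 ha0 a1 ha1 ξ (ι := Unit) (fun _ => B')
    (fun _ => φ) (fun p => by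
      obtain ⟨p', hp'⟩ := hφ p
      exact ⟨(), p', hp'⟩)]
  exact ⟨fun h => h (), fun h _ => h⟩

include hts ha0 ha1 in
/-- On a connected base, `IsDegZeroR` can be checked at a single point. -/
theorem isDegZeroR_iff_of_preconnected {B : Type u} [CommRing B] [Algebra k B]
    [PreconnectedSpace (PrimeSpectrum B)] (ξ : ClR k A0 A1 A01 t s B) (p₀ : PrimeSpectrum B) :
    IsDegZeroR B ξ ↔ degFunR ξ p₀ = 0 := by
  rw [isDegZeroR_iff hts a0 ha0 a1 ha1]
  constructor
  · intro h
    exact h p₀
  · intro h p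
    rw [(isLocallyConstant_degFunR hts a0 ha0 a1 ha1 ξ).apply_eq_of_preconnectedSpace p p₀, h]

include hts ha0 ha1 in
/-- The degree at a point spreads out to a basic open neighbourhood. -/
theorem exists_away_degFunR_eq {B : Type u} [CommRing B] [Algebra k B]
    (ξ : ClR k A0 A1 A01 t s B) (p : PrimeSpectrum B) :
    ∃ f : B, f ∉ p.asIdeal ∧
      ∀ q : PrimeSpectrum B, f ∉ q.asIdeal → degFunR ξ q = degFunR ξ p := by
  obtain ⟨U, hU, hpU, hconst⟩ :=
    (IsLocallyConstant.iff_exists_open _).1 (isLocallyConstant_degFunR hts a0 ha0 a1 ha1 ξ) p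
  obtain ⟨_, ⟨_, ⟨f, rfl⟩, rfl⟩, hpf, hfU⟩ :=
    PrimeSpectrum.isBasis_basic_opens.exists_subset_of_mem_open hpU hU
  exact ⟨f, hpf, fun q hq => hconst q (hfU hq)⟩

include hts ha0 ha1 in
/-- The degree of all fibres of the restriction to `D(f)`, for any field-valued point. -/
theorem exists_away_degClassR_eq {B : Type u} [CommRing B] [Algebra k B]
    (ξ : ClR k A0 A1 A01 t s B) (p : PrimeSpectrum B) :
    ∃ f : B, f ∉ p.asIdeal ∧
      ∀ (K : Type u) [Field K] [Algebra k K] (ψ : Localization.Away f →ₐ[k] K),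
        degClass K (bcR ψ (bcR (IsScalarTower.toAlgHom k B (Localization.Away f)) ξ)) =
          degFunR ξ p := by
  obtain ⟨f, hf, h⟩ := exists_away_degFunR_eq hts a0 ha0 a1 ha1 ξ p
  refine ⟨f, hf, fun K _ _ ψ => ?_⟩
  rw [bcR_bc, degClass_bcR_eq_degFunR hts a0 ha0 a1 ha1]
  apply h
  change ¬ (ψ.comp (IsScalarTower.toAlgHom k B (Localization.Away f))) f = 0
  change ¬ ψ (algebraMap B (Localization.Away f) f) = 0
  exact ((IsLocalization.Away.algebraMap_isUnit (S := Localization.Away f) f).map ψ).ne_zero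

include hts ha0 ha1 in
/-- **Degree zero spreads out**: if the degree vanishes at `p` then the restriction to a basic open
neighbourhood `D(f)` of `p` has degree zero. -/
theorem exists_away_isDegZeroR {B : Type u} [CommRing B] [Algebra k B]
    (ξ : ClR k A0 A1 A01 t s B) (p : PrimeSpectrum B) (hp : degFunR ξ p = 0) :
    ∃ f : B, f ∉ p.asIdeal ∧
      IsDegZeroR (Localization.Away f)
        (bcR (IsScalarTower.toAlgHom k B (Localization.Away f)) ξ) := by
  obtain ⟨f, hf, h⟩ := exists_away_degClassR_eq hts a0 ha0 a1 ha1 ξ p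
  exact ⟨f, hf, fun K _ _ _ ψ => (h K ψ).trans hp⟩

include hts ha0 ha1 in
/-- Variant: degree zero at one geometric point above `p` spreads out. -/
theorem exists_away_isDegZeroR_of_point {B : Type u} [CommRing B] [Algebra k B]
    (ξ : ClR k A0 A1 A01 t s B) (K : Type u) [Field K] [Algebra k K] (ψ : B →ₐ[k] K)
    (h : degClass K (bcR ψ ξ) = 0) :
    ∃ f : B, ψ f ≠ 0 ∧
      IsDegZeroR (Localization.Away f)
        (bcR (IsScalarTower.toAlgHom k B (Localization.Away f)) ξ) := by
  rw [degClass_bcR_eq_degFunR hts a0 ha0 a1 ha1] at h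
  obtain ⟨f, hf, hz⟩ := exists_away_isDegZeroR hts a0 ha0 a1 ha1 ξ _ h
  exact ⟨f, hf, hz⟩

end Main

end ConstFamily

end Fermat.Agent.FFJ.Core.DegFamilyR65
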