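/-
Programme FFJ (S19), chapter Core.  Owner: helper77.   **S19-CORE: the abstract core of Steps 2-4 of
plan #154.**

`R` a local PID (a DVR in practice: `ℤ_(ℓ)^h_f` inside `ℚ̄`, or the integers of a finite unramified
extension of `ℚ_ℓ`), `F = Frac R`, `K ⊇ F` (an algebraic closure), `kbar` an algebraically closed field
over the residue field of `R`.

* `PicFun R`: a commutative-group-valued functor `D` on `R`-algebras (think: `B ↦` rigidified line
  bundles of fibrewise degree `0` on `X_B`, i.e. classes of JAC lattice triples over `B`).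
* `Chart D K kbar n`: ONE affine chart of `D` -- a ring `RW` with a universal point `x : D.P RW`,
  a predicate `Wbar` on `kbar`-points such that (`mem`) a point `ξ` over a FINITE `R`-algebra `B`
  all of whose geometric closed points `B → kbar` satisfy `Wbar` is classified by a map `RW → B`,
  (`inj_K`) classifying maps to `K` are unique, and (`torsion`) all `n`-torsion `kbar`-points
  satisfy `Wbar` (= "choice of `E`").
* `TorsionExtends D K n`: every `n`-torsion `K`-point comes from an `n`-torsion point over a finite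
  `R`-algebra `B ⊆ K` (= valuative property + Galois descent; `B = 𝒪_L`).

`exists_isFunOrder`: then every finite Galois-stable group `M` of `n`-torsion `K`-points carries a
FUNCTION ORDER `H ⊆ Fun(M, K)` over `R` in the sense of `TW/FF/FunOrder68` (hence, by helper64's shell
theorem, `M` is the group of `K`-points of a finite flat cocommutative Hopf algebra over `R`:
`exists_hopfModel`).

Proof: `φ_m : RW → K` := the classifying map of `m` (exists by `TorsionExtends` + `mem` + `torsion`,
unique by `inj_K`); `H := range (r ↦ (m ↦ φ_m r))`.  Finite: `H` is a quotient of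
`H' := range (RW → ∏_m B_m)`.  Equivariant, separating: uniqueness.  Comultiplication:
`y := p₁^* x_{H'} · p₂^* x_{H'}` over `H' ⊗ H'`; a geometric closed point of `H' ⊗ H'` extends through
`∏ B_m` (integral extension, `kbar` algebraically closed) hence factors through some
`B_m ⊗ B_m'`, so `y` is there a product of two `n`-torsion points; by `mem`, `y` is classified by
`ψ₂ : RW → H' ⊗ H'`, and `(ev_m ⊗ ev_m') ∘ ψ₂ = φ_{m+m'}` by uniqueness.
No representability of the torsion subfunctor, no flatness of `RW`, no injectivity of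
`D.P H → ∏ D.P K` is needed.
-/
import Mathlib
import Fermat.Agent.TW.FF.FunOrder68

set_option autoImplicit false
set_option linter.style.haveILetI false
set_option linter.unusedSectionVars false

noncomputable section

open scoped TensorProduct

namespace Fermat.Agent.FFJ.Core.AbstractCore77

open Fermat.Agent.S19.Shell64 Fermat.Agent.TW.FF.FunOrder68

universe v


/-! ### Two ring-theoretic lemmas -/

/-- an algebra map from an integral algebra over a local ring to a field killing the maximal ideal
has maximal kernel. -/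
theorem ker_isMaximal {R A Ω : Type*} [CommRing R] [IsLocalRing R] [CommRing A] [Algebra R A]
    [Algebra.IsIntegral R A] [Field Ω] [Algebra R Ω]
    (hk : ∀ r ∈ IsLocalRing.maximalIdeal R, algebraMap R Ω r = 0) (f : A →ₐ[R] Ω) :
    (RingHom.ker (f : A →+* Ω)).IsMaximal := by
  haveI : (RingHom.ker (f : A →+* Ω)).IsPrime := RingHom.ker_isPrime _
  apply Ideal.isMaximal_of_isIntegral_of_isMaximal_comap (R := R)
  have h1 : (RingHom.ker (f : A →+* Ω)).comap (algebraMap R A) = IsLocalRing.maximalIdeal R := by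
    apply le_antisymm
    · apply IsLocalRing.le_maximalIdeal
      intro htop
      have h1 : (1 : R) ∈ (RingHom.ker (f : A →+* Ω)).comap (algebraMap R A) := by
        rw [htop]; trivial
      rw [Ideal.mem_comap, RingHom.mem_ker, map_one, map_one] at h1
      exact one_ne_zero h1
    · intro r hr
      rw [Ideal.mem_comap, RingHom.mem_ker]
      change f (algebraMap R A r) = 0
      rw [AlgHom.commutes]
      exact hk r hr
  rw [h1]
  exact IsLocalRing.maximalIdeal.isMaximal R

/-- extension of a ring map with maximal kernel along an integral extension, into an algebraically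
closed field. -/
theorem exists_extension {A C Ω : Type*} [CommRing A] [CommRing C] [Algebra A C]
    [Algebra.IsIntegral A C] [Field Ω] [IsAlgClosed Ω] (f : A →+* Ω)
    (hker : RingHom.ker (algebraMap A C) ≤ RingHom.ker f) (hmax : (RingHom.ker f).IsMaximal) :
    ∃ g : C →+* Ω, g.comp (algebraMap A C) = f := by
  obtain ⟨Q, hQmax, hQ⟩ := Ideal.exists_ideal_over_maximal_of_isIntegral (S := C)
    (RingHom.ker f) hker
  haveI : (Q.comap (algebraMap A C)).IsMaximal := hQ ▸ hmax
  letI : Field (A ⧸ Q.comap (algebraMap A C)) := Ideal.Quotient.field _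
  letI : Field (C ⧸ Q) := Ideal.Quotient.field Q
  letI : Algebra (A ⧸ Q.comap (algebraMap A C)) (C ⧸ Q) :=
    (Ideal.quotientMap Q (algebraMap A C) le_rfl).toAlgebra
  have hle : ∀ a ∈ Q.comap (algebraMap A C), f a = 0 := fun a ha => by
    rw [hQ] at ha; exact ha
  letI : Algebra (A ⧸ Q.comap (algebraMap A C)) Ω :=
    (Ideal.Quotient.lift (Q.comap (algebraMap A C)) f hle).toAlgebra
  haveI : Algebra.IsAlgebraic (A ⧸ Q.comap (algebraMap A C)) (C ⧸ Q) := by
    have hint : (algebraMap A C).IsIntegral := fun x => Algebra.IsIntegral.isIntegral x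
    refine ⟨fun z => ?_⟩
    have := RingHom.IsIntegral.quotient (algebraMap A C) hint (I := Q) z
    exact IsIntegral.isAlgebraic this
  let L : (C ⧸ Q) →ₐ[A ⧸ Q.comap (algebraMap A C)] Ω := IsAlgClosed.lift
  refine ⟨(L : (C ⧸ Q) →+* Ω).comp (Ideal.Quotient.mk Q), ?_⟩
  ext a
  have h1 : L (algebraMap (A ⧸ Q.comap (algebraMap A C)) (C ⧸ Q)
      (Ideal.Quotient.mk _ a)) = algebraMap (A ⧸ Q.comap (algebraMap A C)) Ω
        (Ideal.Quotient.mk _ a) := L.commutes _
  have h2 : algebraMap (A ⧸ Q.comap (algebraMap A C)) (C ⧸ Q) (Ideal.Quotient.mk _ a) =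
      Ideal.Quotient.mk Q (algebraMap A C a) := rfl
  have h3 : algebraMap (A ⧸ Q.comap (algebraMap A C)) Ω (Ideal.Quotient.mk _ a) = f a := rfl
  rw [h2, h3] at h1
  exact h1

/-- a ring map from a finite product of rings to a field factors through a projection. -/
theorem exists_factor_eval {ι : Type*} [Finite ι] {B : ι → Type*} [∀ i, CommRing (B i)]
    {Ω : Type*} [Field Ω] (f : (∀ i, B i) →+* Ω) :
    ∃ (i : ι) (g : B i →+* Ω), ∀ c : ∀ i, B i, f c = g (c i) := by
  classical
  cases nonempty_fintype ι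
  have h1 : ∑ i, f (Pi.single i (1 : B i)) = 1 := by
    rw [← map_sum, Finset.univ_sum_single]
    exact map_one f
  have h2 : ∃ i, f (Pi.single i (1 : B i)) ≠ 0 := by
    by_contra hcon
    push Not at hcon
    rw [Finset.sum_eq_zero (fun i _ => hcon i)] at h1
    exact zero_ne_one h1
  obtain ⟨i, hi⟩ := h2
  have hker : RingHom.ker (Pi.evalRingHom B i) ≤ RingHom.ker f := by
    intro c hc
    rw [RingHom.mem_ker] at hc ⊢
    have h3 : c * Pi.single i (1 : B i) = 0 := by
      funext j
      by_cases hj : j = i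
      · subst hj
        simp only [Pi.mul_apply, Pi.single_eq_same, mul_one, Pi.zero_apply]
        exact hc
      · simp [Pi.single_eq_of_ne hj]
    have h4 : f c * f (Pi.single i (1 : B i)) = 0 := by rw [← map_mul, h3, map_zero]
    exact (mul_eq_zero.mp h4).resolve_right hi
  have hsurj : Function.Surjective (Pi.evalRingHom B i) := fun b =>
    ⟨Pi.single i b, by simp⟩
  refine ⟨i, RingHom.liftOfSurjective (Pi.evalRingHom B i) hsurj ⟨f, hker⟩, fun c => ?_⟩
  exact (RingHom.liftOfRightInverse_comp_apply _ _ (Function.rightInverse_surjInv hsurj)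
    ⟨f, hker⟩ c).symm


/-- A commutative-group-valued functor on `R`-algebras (in universe `0`). -/
structure PicFun (R : Type) [CommRing R] where
  /-- the values -/
  P : ∀ (B : Type) [CommRing B] [Algebra R B], Type v
  [grp : ∀ (B : Type) [CommRing B] [Algebra R B], CommGroup (P B)]
  /-- functoriality -/
  map : ∀ {B B' : Type} [CommRing B] [CommRing B'] [Algebra R B] [Algebra R B'],
    (B →ₐ[R] B') → (P B →* P B')
  map_id : ∀ (B : Type) [CommRing B] [Algebra R B] (x : P B), map (AlgHom.id R B) x = x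
  map_comp : ∀ {B B' B'' : Type} [CommRing B] [CommRing B'] [CommRing B''] [Algebra R B]
    [Algebra R B'] [Algebra R B''] (f : B →ₐ[R] B') (g : B' →ₐ[R] B'') (x : P B),
    map (g.comp f) x = map g (map f x)

attribute [instance] PicFun.grp

/-- One affine chart of `D`, containing all `n`-torsion `kbar`-points, with the "closed points"
membership criterion for finite `R`-algebras. -/
structure Chart {R : Type} [CommRing R] (D : PicFun.{v} R) (K kbar : Type) [Field K] [Algebra R K]
    [Field kbar] [Algebra R kbar] (n : ℕ) where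
  /-- the chart ring -/
  RW : Type
  [commRing : CommRing RW]
  [algebra : Algebra R RW]
  /-- the universal point -/
  x : D.P RW
  /-- the chart, on `kbar`-points -/
  Wbar : D.P kbar → Prop
  inj_K : ∀ φ ψ : RW →ₐ[R] K, D.map φ x = D.map ψ x → φ = ψ
  mem : ∀ (B : Type) [CommRing B] [Algebra R B] [Module.Finite R B] (ξ : D.P B),
    (∀ f : B →ₐ[R] kbar, Wbar (D.map f ξ)) → ∃ ψ : RW →ₐ[R] B, D.map ψ x = ξ
  torsion : ∀ y : D.P kbar, y ^ n = 1 → Wbar y

attribute [instance] Chart.commRing Chart.algebra

/-- torsion `K`-points extend to torsion points over finite `R`-algebras. -/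
def TorsionExtends {R : Type} [CommRing R] (D : PicFun.{v} R) (K : Type) [Field K] [Algebra R K]
    (n : ℕ) : Prop :=
  ∀ m : D.P K, m ^ n = 1 → ∃ (B : Type) (_ : CommRing B) (_ : Algebra R B),
    Module.Finite R B ∧ ∃ (ι : B →ₐ[R] K) (x' : D.P B), x' ^ n = 1 ∧ D.map ι x' = m

section Core

variable {R F K kbar : Type} [CommRing R] [IsDomain R] [IsPrincipalIdealRing R] [IsLocalRing R]
  [Field F] [Field K] [Algebra R F] [Algebra F K] [Algebra R K] [IsScalarTower R F K]
  [Field kbar] [IsAlgClosed kbar] [Algebra R kbar]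
  {D : PicFun.{v} R} {n : ℕ} (C : Chart D K kbar n)
  {M : Type} [AddCommGroup M] [Finite M] [DistribMulAction (K ≃ₐ[F] K) M]
  {B : M → Type} [∀ m, CommRing (B m)] [∀ m, Algebra R (B m)] [∀ m, Module.Finite R (B m)]
  (ι : ∀ m, B m →ₐ[R] K) (ψ : ∀ m, C.RW →ₐ[R] B m)

/-- the classifying maps of the points -/
def phi (m : M) : C.RW →ₐ[R] K := (ι m).comp (ψ m)

/-- the algebra of coordinate functions -/
def PhiHom : C.RW →ₐ[R] (M → K) := AlgHom.pi (phi C ι ψ)

/-- the integral version -/
def PsiHom : C.RW →ₐ[R] (∀ m, B m) := AlgHom.pi ψ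

/-- evaluation of the integral algebra at a point. -/
def evPt (m : M) : (PsiHom C ψ).range →ₐ[R] K :=
  (ι m).comp ((Pi.evalAlgHom R B m).comp (PsiHom C ψ).range.val)

theorem evPt_comp (m : M) :
    (evPt C ι ψ m).comp (PsiHom C ψ).rangeRestrict = phi C ι ψ m := by
  ext r
  rfl

/-- the comparison map to functions -/
def JHom : (∀ m, B m) →ₐ[R] (M → K) :=
  AlgHom.pi (fun m => (ι m).comp (Pi.evalAlgHom R B m))

theorem JHom_comp : (JHom ι).comp (PsiHom C ψ) = PhiHom C ι ψ := by
  ext r m
  rfl

include ι ψ in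
theorem finite_range : Module.Finite R (PhiHom C ι ψ).range := by
  have h1 : IsNoetherian R (∀ m, B m) := isNoetherian_of_isNoetherianRing_of_finite R _
  have h2 : (Subalgebra.toSubmodule (PsiHom C ψ).range).FG := IsNoetherian.noetherian _
  have h3 : Subalgebra.toSubmodule (PhiHom C ι ψ).range =
      (Subalgebra.toSubmodule (PsiHom C ψ).range).map (JHom ι).toLinearMap := by
    rw [← JHom_comp C ι ψ]
    ext f
    simp only [Subalgebra.mem_toSubmodule, AlgHom.mem_range, AlgHom.comp_apply,
      Submodule.mem_map, AlgHom.toLinearMap_apply]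
    constructor
    · rintro ⟨r, rfl⟩
      exact ⟨_, ⟨r, rfl⟩, rfl⟩
    · rintro ⟨_, ⟨r, rfl⟩, rfl⟩
      exact ⟨r, rfl⟩
  have h4 : (Subalgebra.toSubmodule (PhiHom C ι ψ).range).FG := h3 ▸ h2.map _
  exact Module.Finite.iff_fg.mpr h4



/-- the Galois action on `K` as an `R`-algebra map. -/
def gal (σ : K ≃ₐ[F] K) : K →ₐ[R] K := (σ : K →ₐ[F] K).restrictScalars R

omit [IsDomain R] [IsPrincipalIdealRing R] [IsLocalRing R] [IsAlgClosed kbar] [Finite M]
  [DistribMulAction (K ≃ₐ[F] K) M] [∀ m, Module.Finite R (B m)] in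
theorem gal_apply (σ : K ≃ₐ[F] K) (z : K) : gal (R := R) σ z = σ z := rfl

variable (emb : M →+ Additive (D.P K))
  (hφ : ∀ m, D.map (phi C ι ψ m) C.x = Additive.toMul (emb m))

include hφ in
theorem phi_unique (m : M) (χ : C.RW →ₐ[R] K) (h : D.map χ C.x = Additive.toMul (emb m)) :
    χ = phi C ι ψ m :=
  C.inj_K _ _ (by rw [h, hφ])

include hφ in
theorem phi_smul
    (heq : ∀ (σ : K ≃ₐ[F] K) (m : M),
      emb (σ • m) = Additive.ofMul (D.map (gal (R := R) σ) (Additive.toMul (emb m))))
    (σ : K ≃ₐ[F] K) (m : M) :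
    phi C ι ψ (σ • m) = (gal (R := R) σ).comp (phi C ι ψ m) := by
  refine (phi_unique C ι ψ emb hφ (σ • m) _ ?_).symm
  rw [D.map_comp, hφ, heq]
  rfl

include hφ in
theorem equivariant_range
    (heq : ∀ (σ : K ≃ₐ[F] K) (m : M),
      emb (σ • m) = Additive.ofMul (D.map (gal (R := R) σ) (Additive.toMul (emb m))))
    (h : M → K) (hh : h ∈ (PhiHom C ι ψ).range) : IsEquivariantFun F h := by
  obtain ⟨r, rfl⟩ := hh
  intro σ m
  change phi C ι ψ (σ • m) r = σ (phi C ι ψ m r)
  rw [phi_smul C ι ψ emb hφ heq σ m]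
  rfl

include hφ in
theorem separates_range (hinj : Function.Injective emb) (m m' : M) (hne : m ≠ m') :
    ∃ h ∈ (PhiHom C ι ψ).range, h m ≠ h m' := by
  by_contra hcon
  push Not at hcon
  apply hne
  apply hinj
  have h1 : phi C ι ψ m = phi C ι ψ m' := by
    ext r
    exact hcon (PhiHom C ι ψ r) ⟨r, rfl⟩
  have h2 := hφ m
  rw [h1, hφ m'] at h2
  exact (Additive.toMul.injective h2).symm

/-- the universal point over the integral algebra. -/
def xH : D.P (PsiHom C ψ).range := D.map (PsiHom C ψ).rangeRestrict C.x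

include ι in
theorem finite_psiRange : Module.Finite R (PsiHom C ψ).range := by
  have h1 : IsNoetherian R (∀ m, B m) := isNoetherian_of_isNoetherianRing_of_finite R _
  have h2 : (Subalgebra.toSubmodule (PsiHom C ψ).range).FG := IsNoetherian.noetherian _
  exact Module.Finite.iff_fg.mpr h2

include ι in
/-- **closed points of the universal point are torsion.** -/
theorem closedPoint_torsion (hk : ∀ r ∈ IsLocalRing.maximalIdeal R, algebraMap R kbar r = 0)
    (htor : ∀ m, (D.map (ψ m) C.x) ^ n = 1) (f : (PsiHom C ψ).range →ₐ[R] kbar) :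
    (D.map f (xH C ψ)) ^ n = 1 := by
  haveI : Module.Finite R (PsiHom C ψ).range := finite_psiRange C ι ψ
  haveI : Algebra.IsIntegral R (PsiHom C ψ).range := Algebra.IsIntegral.of_finite R _
  haveI : Algebra.IsIntegral R (∀ m, B m) := Algebra.IsIntegral.of_finite R _
  haveI : Algebra.IsIntegral (PsiHom C ψ).range (∀ m, B m) := Algebra.IsIntegral.tower_top R
  have hmax := ker_isMaximal hk f
  have hker : RingHom.ker (algebraMap (PsiHom C ψ).range (∀ m, B m)) ≤
      RingHom.ker (f : (PsiHom C ψ).range →+* kbar) := by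
    intro c hc
    rw [RingHom.mem_ker] at hc
    have : c = 0 := Subtype.ext hc
    rw [this]
    exact Ideal.zero_mem _
  obtain ⟨gt, hgt⟩ := exists_extension (f : (PsiHom C ψ).range →+* kbar) hker hmax
  obtain ⟨m, g, hg⟩ := exists_factor_eval gt
  have hgt' : ∀ c : (PsiHom C ψ).range, gt (c : ∀ m, B m) = f c := fun c =>
    RingHom.congr_fun hgt c
  let gA : B m →ₐ[R] kbar :=
    { g with
      commutes' := fun r => by
        have h1 : g (algebraMap R (B m) r) = gt (algebraMap R (∀ m, B m) r) := by
          rw [hg]; rfl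
        have h2 : gt (algebraMap R (∀ m, B m) r) = f (algebraMap R (PsiHom C ψ).range r) :=
          hgt' (algebraMap R (PsiHom C ψ).range r)
        change g (algebraMap R (B m) r) = _
        rw [h1, h2, AlgHom.commutes] }
  have hf : f = gA.comp ((Pi.evalAlgHom R B m).comp (PsiHom C ψ).range.val) := by
    ext c
    change f c = g ((c : ∀ m, B m) m)
    rw [← hg, hgt']
  have hcomp : ((Pi.evalAlgHom R B m).comp (PsiHom C ψ).range.val).comp
      (PsiHom C ψ).rangeRestrict = ψ m := by
    ext r
    rfl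
  have h3 : D.map f (xH C ψ) = D.map gA (D.map (ψ m) C.x) := by
    rw [hf, D.map_comp, xH,
      ← D.map_comp (PsiHom C ψ).rangeRestrict
        ((Pi.evalAlgHom R B m).comp (PsiHom C ψ).range.val), hcomp]
  rw [h3, ← map_pow, htor, map_one]

include hφ in
/-- **the comultiplication**, in tensor form. -/
theorem exists_comul (hk : ∀ r ∈ IsLocalRing.maximalIdeal R, algebraMap R kbar r = 0)
    (htor : ∀ m, (D.map (ψ m) C.x) ^ n = 1) (r : C.RW) :
    ∃ t : (PsiHom C ψ).range ⊗[R] (PsiHom C ψ).range, ∀ m m' : M,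
      Algebra.TensorProduct.productMap (evPt C ι ψ m) (evPt C ι ψ m') t =
        phi C ι ψ (m + m') r := by
  haveI : Module.Finite R (PsiHom C ψ).range := finite_psiRange C ι ψ
  let y : D.P ((PsiHom C ψ).range ⊗[R] (PsiHom C ψ).range) :=
    D.map Algebra.TensorProduct.includeLeft (xH C ψ) *
      D.map Algebra.TensorProduct.includeRight (xH C ψ)
  have hW : ∀ f : (PsiHom C ψ).range ⊗[R] (PsiHom C ψ).range →ₐ[R] kbar,
      C.Wbar (D.map f y) := by
    intro f
    apply C.torsion
    have e1 := D.map_comp (B' := (PsiHom C ψ).range ⊗[R] (PsiHom C ψ).range)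
      Algebra.TensorProduct.includeLeft f (xH C ψ)
    have e2 := D.map_comp (B' := (PsiHom C ψ).range ⊗[R] (PsiHom C ψ).range)
      Algebra.TensorProduct.includeRight f (xH C ψ)
    rw [map_mul, ← e1, ← e2, mul_pow,
      closedPoint_torsion C ι ψ hk htor, closedPoint_torsion C ι ψ hk htor, one_mul]
  obtain ⟨ψ₂, hψ₂⟩ := C.mem _ y hW
  refine ⟨ψ₂ r, fun m m' => ?_⟩
  have h1 : (Algebra.TensorProduct.productMap (evPt C ι ψ m) (evPt C ι ψ m')).comp ψ₂ =
      phi C ι ψ (m + m') := by
    apply phi_unique C ι ψ emb hφ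
    have e0 := D.map_comp (B' := (PsiHom C ψ).range ⊗[R] (PsiHom C ψ).range) ψ₂
      (Algebra.TensorProduct.productMap (evPt C ι ψ m) (evPt C ι ψ m')) C.x
    have e1 := D.map_comp (B' := (PsiHom C ψ).range ⊗[R] (PsiHom C ψ).range)
      Algebra.TensorProduct.includeLeft
      (Algebra.TensorProduct.productMap (evPt C ι ψ m) (evPt C ι ψ m')) (xH C ψ)
    have e2 := D.map_comp (B' := (PsiHom C ψ).range ⊗[R] (PsiHom C ψ).range)
      Algebra.TensorProduct.includeRight
      (Algebra.TensorProduct.productMap (evPt C ι ψ m) (evPt C ι ψ m')) (xH C ψ)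
    rw [Algebra.TensorProduct.productMap_left] at e1
    rw [Algebra.TensorProduct.productMap_right] at e2
    have e3 := D.map_comp (PsiHom C ψ).rangeRestrict (evPt C ι ψ m) C.x
    have e4 := D.map_comp (PsiHom C ψ).rangeRestrict (evPt C ι ψ m') C.x
    rw [evPt_comp, hφ] at e3 e4
    rw [e0, hψ₂, map_mul, ← e1, ← e2]
    change D.map (evPt C ι ψ m) (D.map (PsiHom C ψ).rangeRestrict C.x) *
      D.map (evPt C ι ψ m') (D.map (PsiHom C ψ).rangeRestrict C.x) = _
    rw [← e3, ← e4, map_add]
    rfl
  rw [← h1]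
  rfl

include hφ in
/-- **The function order**, with the integral data chosen. -/
theorem isFunOrder_range (hk : ∀ r ∈ IsLocalRing.maximalIdeal R, algebraMap R kbar r = 0)
    (htor : ∀ m, (D.map (ψ m) C.x) ^ n = 1) (hinj : Function.Injective emb)
    (heq : ∀ (σ : K ≃ₐ[F] K) (m : M),
      emb (σ • m) = Additive.ofMul (D.map (gal (R := R) σ) (Additive.toMul (emb m)))) :
    IsFunOrder R F (PhiHom C ι ψ).range where
  finite := finite_range C ι ψ
  equivariant := equivariant_range C ι ψ emb hφ heq
  separates := separates_range C ι ψ emb hφ hinj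
  comul := by
    rintro h ⟨r, rfl⟩
    obtain ⟨t, ht⟩ := exists_comul C ι ψ emb hφ hk htor r
    obtain ⟨n₀, a', b', rfl⟩ := exists_fin_sum_tmul t
    have hmem : ∀ c : (PsiHom C ψ).range, JHom ι (c : ∀ m, B m) ∈ (PhiHom C ι ψ).range := by
      rintro ⟨_, ⟨r', rfl⟩⟩
      exact ⟨r', (AlgHom.congr_fun (JHom_comp C ι ψ) r').symm⟩
    refine ⟨n₀, fun i => ⟨_, hmem (a' i)⟩, fun i => ⟨_, hmem (b' i)⟩, fun m m' => ?_⟩
    change phi C ι ψ (m + m') r = _
    rw [← ht m m', map_sum]
    refine Finset.sum_congr rfl fun i _ => ?_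
    rw [Algebra.TensorProduct.productMap_apply_tmul]
    rfl

end Core

section Main

variable {R F K kbar : Type} [CommRing R] [IsDomain R] [IsPrincipalIdealRing R] [IsLocalRing R]
  [Field F] [Field K] [Algebra R F] [Algebra F K] [Algebra R K] [IsScalarTower R F K]
  [Field kbar] [IsAlgClosed kbar] [Algebra R kbar]

/-- **S19-CORE.**  A group-valued functor `D` on `R`-algebras with one affine chart `C` containing all
`n`-torsion `kbar`-points, such that `n`-torsion `K`-points extend to torsion points over finite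
`R`-algebras, carries a function order on every finite Galois-stable group `M` of `n`-torsion
`K`-points. -/
theorem exists_isFunOrder {D : PicFun.{v} R} {n : ℕ} (C : Chart D K kbar n)
    (hk : ∀ r ∈ IsLocalRing.maximalIdeal R, algebraMap R kbar r = 0)
    (hVD : TorsionExtends D K n)
    {M : Type} [AddCommGroup M] [Finite M] [DistribMulAction (K ≃ₐ[F] K) M]
    (emb : M →+ Additive (D.P K)) (hinj : Function.Injective emb) (hn : ∀ m : M, n • m = 0)
    (heq : ∀ (σ : K ≃ₐ[F] K) (m : M),
      emb (σ • m) = Additive.ofMul (D.map (gal (R := R) σ) (Additive.toMul (emb m)))) :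
    ∃ H : Subalgebra R (M → K), IsFunOrder R F H := by
  have htorM : ∀ m : M, (Additive.toMul (emb m)) ^ n = 1 := fun m => by
    have h1 : n • emb m = 0 := by rw [← map_nsmul, hn, map_zero]
    have h2 := congrArg Additive.toMul h1
    rwa [toMul_nsmul, toMul_zero] at h2
  choose B i1 i2 hfin ι x' hx' hι using fun m => hVD (Additive.toMul (emb m)) (htorM m)
  have hW : ∀ m, ∃ ψ : C.RW →ₐ[R] B m, D.map ψ C.x = x' m := fun m =>
    C.mem (B m) (x' m) (fun f => C.torsion _ (by rw [← map_pow, hx', map_one]))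
  choose ψ hψ using hW
  refine ⟨(PhiHom C ι ψ).range, isFunOrder_range C ι ψ emb (fun m => ?_) hk (fun m => ?_) hinj heq⟩
  · change D.map ((ι m).comp (ψ m)) C.x = _
    rw [D.map_comp, hψ, hι]
  · rw [hψ, hx']

end Main

section Model

variable {R F K kbar : Type} [CommRing R] [IsDomain R] [IsPrincipalIdealRing R] [IsLocalRing R]
  [Field F] [Field K] [Algebra R F] [IsFractionRing R F] [Algebra F K] [Algebra R K]
  [IsScalarTower R F K] [Field kbar] [IsAlgClosed kbar] [Algebra R kbar]

/-- **S19-CORE, Hopf form**: under the hypotheses of `exists_isFunOrder`, `M` is the group of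
`K`-points of a finite flat cocommutative Hopf algebra over `R`, equivariantly. -/
theorem exists_hopfModel {D : PicFun.{v} R} {n : ℕ} (C : Chart D K kbar n)
    (hfix : FixedFieldEqBase F K)
    (hk : ∀ r ∈ IsLocalRing.maximalIdeal R, algebraMap R kbar r = 0)
    (hVD : TorsionExtends D K n)
    {M : Type} [AddCommGroup M] [Finite M] [DistribMulAction (K ≃ₐ[F] K) M]
    (emb : M →+ Additive (D.P K)) (hinj : Function.Injective emb) (hn : ∀ m : M, n • m = 0)
    (heq : ∀ (σ : K ≃ₐ[F] K) (m : M),
      emb (σ • m) = Additive.ofMul (D.map (gal (R := R) σ) (Additive.toMul (emb m)))) :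
    ∃ (Hh : Type) (_ : CommRing Hh) (_ : HopfAlgebra R Hh),
      Module.Finite R Hh ∧ Module.Flat R Hh ∧ Coalgebra.IsCocomm R Hh ∧
      ∃ e : WithConv (Hh →ₐ[R] K) ≃ M,
        (∀ f g, e (f * g) = e f + e g) ∧
        ∀ (σ : K ≃ₐ[F] K) (f g : WithConv (Hh →ₐ[R] K)),
          (∀ h : Hh, g h = σ (f h)) → e g = σ • e f := by
  obtain ⟨H, hH⟩ := exists_isFunOrder (F := F) C hk hVD emb hinj hn heq
  exact hH.exists_model hfix

end Model

end Fermat.Agent.FFJ.Core.AbstractCore77
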